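import Fermat.Agent.F4.PT.Defs
import Fermat.Agent.F4.BR.LevelsBridge
import Fermat.Agent.F4.BR.Arch
import Fermat.Agent.F4.BR.Smooth

/-!
# F4 / PT / BridgeH1 : the smooth `H¹` and the Prelude's `continuousH1S`, `sha₁`  (seat PT-BR)

* `ptbrH1 𝓤 A : H1sm 𝓤 A →ₗ H1 A`, injective;
* `ptbrE1 S M : H1sm (levelsS S) M ≃ₗ continuousH1S S M`;
* `ptbr_locRes_H1` : compatibility with the localisation maps;
* `ptbr_E1_mem_sha₁_iff` : `ptbrE1 x ∈ sha₁ S M ↔ x ∈ sha1sm S M` (`p` odd).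
-/

set_option autoImplicit false

open CategoryTheory Module groupCohomology ExtCitation

namespace Fermat.Agent.F4

section General

variable {k : Type} [CommRing k] {G : Type} [Group G] (𝓤 : Levels G) (A : Rep.{0} k G)

/-- the class of a smooth cocycle in Mathlib's `H¹`. -/
noncomputable def ptbrZ1ToH1 : ↥(Z1 𝓤 A) →ₗ[k] H1 A :=
  (H1π A).hom ∘ₗ Submodule.inclusion (inf_le_left : Z1 𝓤 A ≤ cocycles₁ A)

theorem ptbrZ1ToH1_apply (z : ↥(Z1 𝓤 A)) :
    ptbrZ1ToH1 𝓤 A z = (H1π A).hom ⟨(z : G → A), z.2.1⟩ := rfl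

theorem ptbr_ker_Z1ToH1 : LinearMap.ker (ptbrZ1ToH1 𝓤 A) = (B1 A).comap (Z1 𝓤 A).subtype := by
  ext z
  rw [LinearMap.mem_ker, ptbrZ1ToH1_apply, Submodule.mem_comap]
  exact H1π_eq_zero_iff (A := A) ⟨(z : G → A), z.2.1⟩

/-- smooth `H¹` maps to Mathlib's `H¹`. -/
noncomputable def ptbrH1 : H1sm 𝓤 A →ₗ[k] H1 A :=
  Submodule.liftQ _ (ptbrZ1ToH1 𝓤 A) (ptbr_ker_Z1ToH1 𝓤 A).ge

@[simp]
theorem ptbrH1_mk (z : ↥(Z1 𝓤 A)) :
    ptbrH1 𝓤 A (Submodule.Quotient.mk z) = (H1π A).hom ⟨(z : G → A), z.2.1⟩ := rfl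

theorem ptbrH1_injective : Function.Injective (ptbrH1 𝓤 A) := by
  rw [← LinearMap.ker_eq_bot, ptbrH1, Submodule.ker_liftQ, ptbr_ker_Z1ToH1]
  exact Submodule.mkQ_map_self _

end General

section Global

variable {k : Type} [CommRing k] (S : Finset Nat.Primes) (M : Rep.{0} k GQ)

theorem ptbr_range_H1 : LinearMap.range (ptbrH1 (levelsS S) M) = continuousH1S S M := by
  ext x
  rw [mem_continuousH1S_iff_Z1, LinearMap.mem_range]
  constructor
  · rintro ⟨y, rfl⟩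
    obtain ⟨z, rfl⟩ := Submodule.Quotient.mk_surjective _ y
    exact ⟨(z : GQ → M), z.2, rfl⟩
  · rintro ⟨c, hc, rfl⟩
    exact ⟨Submodule.Quotient.mk ⟨c, hc⟩, rfl⟩

/-- smooth `H¹` for the `S`-levels is the Prelude's `continuousH1S`. -/
noncomputable def ptbrE1 : H1sm (levelsS S) M ≃ₗ[k] ↥(continuousH1S S M) :=
  (LinearEquiv.ofInjective (ptbrH1 (levelsS S) M) (ptbrH1_injective _ _)).trans
    (LinearEquiv.ofEq _ _ (ptbr_range_H1 S M))

@[simp]
theorem coe_ptbrE1 (x : H1sm (levelsS S) M) :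
    ((ptbrE1 S M x : ↥(continuousH1S S M)) : H1 M) = ptbrH1 (levelsS S) M x := rfl

end Global

section Compat

variable {p : ℕ} [Fact p.Prime] (S : Finset Nat.Primes) (M : Rep.{0} (ZMod p) GQ)

/-- the localisation maps agree. -/
theorem ptbr_locRes_H1 (q : ↥S) (x : H1sm (levelsS S) M) :
    (locRes (extArithLoc S) M (Sum.inr q)).hom (ptbrH1 (levelsS S) M x)
      = ptbrH1 (locLevelsS S q.1) (Rep.res (primeLocalToGlobal q.1) M) (locSm1 S M q.1 x) := by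
  obtain ⟨z, rfl⟩ := Submodule.Quotient.mk_surjective _ x
  rw [ptbrH1_mk]
  show (groupCohomology.map (primeLocalToGlobal q.1) (𝟙 (Rep.res (primeLocalToGlobal q.1) M)) 1).hom
      ((H1π M).hom ⟨(z : GQ → M), z.2.1⟩) = _
  rw [← LinearMap.comp_apply, ← ModuleCat.hom_comp, H1π_comp_map]
  rfl

theorem ptbr_E1_mem_sha₁_iff (hp2 : p ≠ 2) (x : H1sm (levelsS S) M) :
    ((ptbrE1 S M x : ↥(continuousH1S S M)) : H1 M) ∈ sha₁ S M ↔ x ∈ sha1sm S M := by
  rw [mem_sha₁_iff hp2, sha1sm, LinearMap.mem_ker, coe_ptbrE1]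
  constructor
  · rintro ⟨-, h⟩
    funext q
    have := h q
    rw [ptbr_locRes_H1] at this
    exact ptbrH1_injective _ _ (this.trans (map_zero _).symm)
  · intro h
    refine ⟨(ptbrE1 S M x).2, fun q => ?_⟩
    rw [ptbr_locRes_H1]
    have hq : locSm1 S M q.1 x = 0 := congrFun h q
    rw [hq]
    exact map_zero _

end Compat

end Fermat.Agent.F4
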