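import Fermat.Agent.F4.PT.Defs
import Fermat.Agent.F4.BR.LevelsBridge
import Fermat.Agent.F4.BR.Arch
import Fermat.Agent.F4.BR.Smooth

/-!
# F4 / PT / BridgeH2 : the smooth `H²` and the Prelude's `continuousH2S`, `sha₂`  (seat PT-BR)

* `ptbrQuotEquiv` : the quotient `Z/B` only depends on the submodules `Z`, `B`;
* `ptbrE2 S M : H2sm (levelsS S) M ≃ₗ continuousH2S S M`;
* `ptbrE2loc r A : H2sm (levelsAll.comap r) A ≃ₗ continuousH2 r A`;
* `ptbr_locRes₂S_E2` : compatibility with the localisation maps;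
* `ptbr_E2_mem_sha₂_iff` : `ptbrE2 x ∈ sha₂ S M ↔ x ∈ sha2sm S M` (`p` odd).
-/

set_option autoImplicit false

open CategoryTheory Module groupCohomology ExtCitation

namespace Fermat.Agent.F4

section Generic

variable {k V : Type*} [CommRing k] [AddCommGroup V] [Module k V]

/-- The quotient `Z/(B ∩ Z)` depends only on the submodules. -/
def ptbrQuotEquiv {Z Z' B B' : Submodule k V} (hZ : Z = Z') (hB : B = B') :
    (↥Z ⧸ B.comap Z.subtype) ≃ₗ[k] (↥Z' ⧸ B'.comap Z'.subtype) :=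
  Submodule.Quotient.equiv _ _ (LinearEquiv.ofEq Z Z' hZ) (by
    subst hZ hB
    ext x
    simp)

@[simp]
theorem ptbrQuotEquiv_mk {Z Z' B B' : Submodule k V} (hZ : Z = Z') (hB : B = B') (z : ↥Z) :
    ptbrQuotEquiv hZ hB (Submodule.Quotient.mk z)
      = Submodule.Quotient.mk (⟨(z : V), hZ ▸ z.2⟩ : ↥Z') := rfl

end Generic

section Global

variable {k : Type} [CommRing k] (S : Finset Nat.Primes) (M : Rep.{0} k GQ)

/-- smooth `H²` for the `S`-levels is the Prelude's `continuousH2S`. -/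
noncomputable def ptbrE2 : H2sm (levelsS S) M ≃ₗ[k] continuousH2S S M :=
  ptbrQuotEquiv (Z2_levelsS_eq S M) (B2_levelsS_eq S M)

theorem ptbrE2_mk (z : ↥(Z2 (levelsS S) M)) :
    ptbrE2 S M (Submodule.Quotient.mk z)
      = continuousH2Sπ S M ⟨(z : GQ × GQ → M), Z2_levelsS_eq S M ▸ z.2⟩ := rfl

end Global

section Local

variable {k : Type} [CommRing k] {H : Type} [Group H] (r : H →* GQ) (A : Rep.{0} k H)

theorem ptbr_lc₁_comap_eq : lc₁ (levelsAll.comap r) A = levelCochains₁ r A := by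
  ext f
  exact isLC₁_levelsAll_comap_iff r f

theorem ptbr_lc₂_comap_eq : lc₂ (levelsAll.comap r) A = levelCochains₂ r A := by
  ext f
  exact isLC₂_levelsAll_comap_iff r f

theorem ptbr_Z2_comap_eq : Z2 (levelsAll.comap r) A = levelCocycles₂ r A := by
  rw [Z2, levelCocycles₂, ptbr_lc₂_comap_eq]

theorem ptbr_B2_comap_eq : B2 (levelsAll.comap r) A = levelCoboundaries₂ r A := by
  rw [B2, levelCoboundaries₂, ptbr_lc₁_comap_eq]

/-- smooth `H²` for all levels of a local group is the Prelude's `continuousH2`. -/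
noncomputable def ptbrE2loc : H2sm (levelsAll.comap r) A ≃ₗ[k] continuousH2 r A :=
  ptbrQuotEquiv (ptbr_Z2_comap_eq r A) (ptbr_B2_comap_eq r A)

theorem ptbrE2loc_mk (z : ↥(Z2 (levelsAll.comap r) A)) :
    ptbrE2loc r A (Submodule.Quotient.mk z)
      = continuousH2π r A ⟨(z : H × H → A), ptbr_Z2_comap_eq r A ▸ z.2⟩ := rfl

end Local

section Compat

variable {p : ℕ} [Fact p.Prime] (S : Finset Nat.Primes) (M : Rep.{0} (ZMod p) GQ)

/-- the localisation maps agree. -/
theorem ptbr_locRes₂S_E2 (q : Nat.Primes) (x : H2sm (levelsS S) M) :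
    locRes₂S S M (primeLocalToGlobal q) (ptbrE2 S M x)
      = ptbrE2loc (primeLocalToGlobal q) (Rep.res (primeLocalToGlobal q) M) (locSm2 S M q x) := by
  obtain ⟨z, rfl⟩ := Submodule.Quotient.mk_surjective _ x
  rfl

theorem ptbr_E2_mem_sha₂_iff (hp2 : p ≠ 2) (x : H2sm (levelsS S) M) :
    ptbrE2 S M x ∈ sha₂ S M ↔ x ∈ sha2sm S M := by
  rw [mem_sha₂_iff hp2, sha2sm, Submodule.mem_iInf]
  refine forall_congr' fun q => ?_
  rw [ptbr_locRes₂S_E2, LinearMap.mem_ker, LinearEquiv.map_eq_zero_iff]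

end Compat

end Fermat.Agent.F4
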