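import Fermat.Agent.F4.PT.Defs
import Fermat.Agent.F4.BR.LevelsBridge
import Fermat.Agent.F4.BR.Arch
import Fermat.Agent.F4.BR.Smooth
import Fermat.Agent.F4.PT.BridgeH1
import Fermat.Agent.F4.PT.BridgeH2

/-!
# F4 / PT / Bridge : from the smooth model to the Prelude's `sha₁`, `sha₂`

Owner: seat PT-BR (helper25).
* `H2sm (levelsS S) M ≃ continuousH2S S M` (`ptbrE2`, equal submodules by `Z2_levelsS_eq`,
  `B2_levelsS_eq`), carrying `sha2sm S M` to `sha₂ S M` (`mem_sha₂_iff`: the archimedean place is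
  invisible; `isLC₁_levelsAll_comap_iff`: the local `H²` of the Prelude is `H2sm (locLevelsAll q)`);
* `H1sm (levelsS S) M' ≃ continuousH1S S M'` (`ptbrE1`) carrying `sha1sm` to `sha₁` (`mem_sha₁_iff`;
  a smooth local class vanishes in `H1sm` iff it vanishes in the abstract `H1`);
* `exists_dualTwistEquiv` : `M ≃ Hom(M.dualTwist χ, 𝔽_p(χ))`, equivariant.
-/

set_option autoImplicit false
set_option linter.unusedVariables false

open CategoryTheory Module groupCohomology ExtCitation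

namespace Fermat.Agent.F4

variable {p : ℕ} [Fact p.Prime]

section Pieces

variable (S : Finset Nat.Primes) (M M' : Rep.{0} (ZMod p) GQ)

theorem ptbr_ker_loc (hp2 : p ≠ 2) :
    LinearMap.ker (locSm1Total S M' ∘ₗ (ptbrE1 S M').symm.toLinearMap)
      = (sha₁ S M').comap (continuousH1S S M').subtype := by
  ext x
  rw [LinearMap.mem_ker, Submodule.mem_comap, Submodule.subtype_apply, LinearMap.comp_apply,
    LinearEquiv.coe_coe]
  have h := ptbr_E1_mem_sha₁_iff S M' hp2 ((ptbrE1 S M').symm x)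
  rw [LinearEquiv.apply_symm_apply] at h
  rw [h, sha1sm, LinearMap.mem_ker]

theorem ptbr_range_delta (hp2 : p ≠ 2) {X : Type} [AddCommGroup X] [Module (ZMod p) X]
    (δ : X →ₗ[ZMod p] H2sm (levelsS S) M) (hδ : LinearMap.range δ = sha2sm S M) :
    LinearMap.range ((ptbrE2 S M).toLinearMap ∘ₗ δ) = sha₂ S M := by
  ext y
  constructor
  · rintro ⟨x, rfl⟩
    rw [LinearMap.comp_apply, LinearEquiv.coe_coe, ptbr_E2_mem_sha₂_iff S M hp2, ← hδ]
    exact ⟨x, rfl⟩
  · intro hy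
    obtain ⟨z, rfl⟩ := (ptbrE2 S M).surjective y
    rw [ptbr_E2_mem_sha₂_iff S M hp2, ← hδ] at hy
    obtain ⟨x, rfl⟩ := hy
    exact ⟨x, rfl⟩

theorem ptbr_ker_delta {X : Type} [AddCommGroup X] [Module (ZMod p) X]
    (δ : X →ₗ[ZMod p] H2sm (levelsS S) M) :
    LinearMap.ker ((ptbrE2 S M).toLinearMap ∘ₗ δ) = LinearMap.ker δ := by
  ext x
  simp only [LinearMap.mem_ker, LinearMap.comp_apply, LinearEquiv.coe_coe,
    LinearEquiv.map_eq_zero_iff]

theorem ptbr_alpha_bijective {X : Type} [AddCommGroup X] [Module (ZMod p) X]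
    (α : X →ₗ[ZMod p] Dual (ZMod p) (H1sm (levelsS S) M')) (hα : Function.Bijective α) :
    Function.Bijective ((ptbrE1 S M').symm.toLinearMap.dualMap ∘ₗ α) := by
  have h1 : Function.Bijective ((ptbrE1 S M').symm.toLinearMap.dualMap) :=
    (LinearEquiv.dualMap (ptbrE1 S M').symm).bijective
  exact h1.comp hα

theorem ptbr_compat {X P1 : Type} [AddCommGroup X] [Module (ZMod p) X] [AddCommGroup P1]
    [Module (ZMod p) P1] (β : P1 →ₗ[ZMod p] X)
    (α : X →ₗ[ZMod p] Dual (ZMod p) (H1sm (levelsS S) M'))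
    (ι : P1 →ₗ[ZMod p]
      Dual (ZMod p) ((q : ↥S) → H1sm (locLevelsS S q.1) (Rep.res (primeLocalToGlobal q.1) M')))
    (h : α ∘ₗ β = (locSm1Total S M').dualMap ∘ₗ ι) :
    ((ptbrE1 S M').symm.toLinearMap.dualMap ∘ₗ α) ∘ₗ β
      = (locSm1Total S M' ∘ₗ (ptbrE1 S M').symm.toLinearMap).dualMap ∘ₗ ι := by
  ext x y
  have h' := congrArg (fun f => f x ((ptbrE1 S M').symm y)) h
  simpa using h'

end Pieces

theorem nonempty_PTSegment_of_Sm (hp2 : p ≠ 2) (S : Finset Nat.Primes)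
    (M M' : Rep (ZMod p) GQ) (hM : IsSmooth (levelsS S) M) (hM' : IsSmooth (levelsS S) M')
    (P : PTSegmentSm S M M') : Nonempty (PTSegment S M M') := by
  let _ := P.instX
  let _ := P.modX
  let _ := P.instP1
  let _ := P.modP1
  have hfin : Module.Finite (ZMod p) (H1sm (levelsS S) M') := P.finite_H1
  exact ⟨@PTSegment.mk p _ S M M' P.X P.P1
    ((q : ↥S) → H1sm (locLevelsS S q.1) (Rep.res (primeLocalToGlobal q.1) M'))
    P.instX P.modX P.instP1 P.modP1
    (inferInstance : AddCommGroup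
      ((q : ↥S) → H1sm (locLevelsS S q.1) (Rep.res (primeLocalToGlobal q.1) M')))
    (inferInstance : Module (ZMod p)
      ((q : ↥S) → H1sm (locLevelsS S q.1) (Rep.res (primeLocalToGlobal q.1) M')))
    P.β ((ptbrE2 S M).toLinearMap ∘ₗ P.δ) ((ptbrE1 S M').symm.toLinearMap.dualMap ∘ₗ P.α)
    (locSm1Total S M' ∘ₗ (ptbrE1 S M').symm.toLinearMap) P.ι
    (Module.Finite.equiv (ptbrE1 S M'))
    (P.exact_X.trans (ptbr_ker_delta S M P.δ).symm)
    (ptbr_range_delta S M hp2 P.δ P.exact_H2)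
    (ptbr_alpha_bijective S M' P.α P.α_bijective)
    (ptbr_ker_loc S M' hp2)
    P.ι_surjective
    (ptbr_compat S M' P.β P.α P.ι P.compat)⟩

/-- `M ≃ Hom(M', 𝔽_p(1))` for `M' = M.dualTwist (cycloChar p)`, `m ↦ (f ↦ f m)`. -/
theorem exists_dualTwistEquiv (M : Rep (ZMod p) GQ) [FiniteDimensional (ZMod p) M] :
    ∃ θ : M ≃ₗ[ZMod p] (M.dualTwist (cycloChar p) →ₗ[ZMod p] Fp1 p),
      ∀ (g : GQ) (m : M) (m' : M.dualTwist (cycloChar p)),
        θ (M.ρ g m) m' = (Fp1 p).ρ g (θ m ((M.dualTwist (cycloChar p)).ρ g⁻¹ m')) := by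
  refine ⟨Module.evalEquiv (ZMod p) M, fun g m m' => ?_⟩
  have h1 : ∀ (x : M) (f : Module.Dual (ZMod p) M), (Module.evalEquiv (ZMod p) M x) f = f x :=
    fun x f => rfl
  have h2 : (M.dualTwist (cycloChar p)).ρ g⁻¹ m'
      = ((cycloChar p g⁻¹ : (ZMod p)ˣ) : ZMod p) • ((m' : Module.Dual (ZMod p) M) ∘ₗ M.ρ g⁻¹⁻¹) :=
    Rep.dualTwist_ρ_apply M (cycloChar p) g⁻¹ m'
  rw [br_smooth_Fp1_ρ]
  erw [h1, h2, h1]
  rw [inv_inv]
  erw [LinearMap.smul_apply, LinearMap.comp_apply]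
  rw [smul_smul, ← Units.val_mul, ← map_mul, mul_inv_cancel, map_one, Units.val_one, one_smul]

end Fermat.Agent.F4
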