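import Fermat.Agent.F4.PT.Abs
import Fermat.Agent.F4.PT.Bridge

/-!
# F4 / PT / Main : `exists_PTSegment` (assembly of PT-ABS, PT-BR and BR)
-/

set_option autoImplicit false

open CategoryTheory Module groupCohomology ExtCitation

namespace Fermat.Agent.F4

variable {p : ℕ} [Fact p.Prime]

theorem exists_PTSegment (hp2 : p ≠ 2) (S : Finset Nat.Primes) (hpS : pPrime p ∈ S)
    (D : GlobalDatum p S) (M : Rep (ZMod p) GQ) [FiniteDimensional (ZMod p) M]
    (hsm : ∀ m : M, ∃ F : IntermediateField ℚ (AlgebraicClosure ℚ), FiniteDimensional ℚ F ∧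
      ∀ s ∈ F.fixingSubgroup, M.ρ s m = m)
    (hMur : ∀ q : Nat.Primes, q ∉ S → ∀ A : ValuationSubring (AlgebraicClosure ℚ),
      A.LiesOverPrime (q : ℕ) → ∀ g ∈ A.inertiaSubgroupIn ℚ, M.ρ g = 1) :
    Nonempty (PTSegment S M (M.dualTwist (cycloChar p))) := by
  have hM : IsSmooth (levelsS S) M := isSmooth_of_unramified S M hsm hMur
  have hM' : IsSmooth (levelsS S) (M.dualTwist (cycloChar p)) := isSmooth_dualTwist S hpS M hM
  obtain ⟨θ, hθ⟩ := exists_dualTwistEquiv M
  have hfin : Module.Finite (ZMod p) M := inferInstance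
  have hfin' : Module.Finite (ZMod p) (M.dualTwist (cycloChar p)) := by
    show Module.Finite (ZMod p) (Module.Dual (ZMod p) M)
    infer_instance
  obtain ⟨P⟩ := exists_PTSegmentSm S D M (M.dualTwist (cycloChar p)) hM hM' hfin hfin' θ hθ
  exact nonempty_PTSegment_of_Sm hp2 S M _ hM hM' P

end Fermat.Agent.F4
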