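import Fermat.Agent.F4.PT.Defs
import Fermat.Agent.F4.DDT
import Fermat.Agent.F4.PT.Abs.Sha

/-!
# F4 / PT / Abs : the Poitou–Tate segment from a global datum, smooth model

Owner: see NOTES/blueprint-F4-v2.md (seat PT-ABS).  Inputs: `GlobalDatum p S` (F4/Datum.lean),
`ddt`, `ddt_inj`, `finite_H1sm_of_perm` (F4/DDT.lean), the long exact sequence (F4/HyperLES.lean),
the pairings (F4/HyperPair.lean).

Construction.  `X = HH¹(Hom(M', KC))`, `P1 = HH¹(Hom(M', KJ))`, `β = (homCxPost M' g)_*`,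
`δ = θ⁻¹ ∘ conn1` (connecting map of `0 → Hom(M', μ_p) → Hom(M', KJ) → Hom(M', KC) → 0`, followed by
`HH²(Hom(M', μ_p)) = H²(Hom(M', 𝔽_p(1))) = H²(M)` via `θ`), `α = α¹_{M'}` for `(KC, D.inv)`,
`ι = ∏_q α¹_{M'|q} ∘ ev_q ∘ res_q`.
* `exact_X` : `exact_HH1_right`-type statement of HyperLES;
* `α_bijective` : `ddt` + `ddt_inj` with `D.a2inj`, `D.a1surj`, `D.a1inj`;
* `ι_surjective` : `D.shapiro1` + `ddt` for `((D.loc q).K, (D.loc q).inv)`;
* `compat` : `D.recip` (+ naturality of the cup product);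
* `exact_H2` : `range δ = ker(HH²(Hom(M', μ_p)) → HH²(Hom(M', KJ)))` (HyperLES), and a class `x` of
  `H²(M)` dies in `HH²(Hom(M', KJ))` iff (`D.shapiro2`) it dies in every `HH²(Hom(M', K_q))` iff
  (`ddt` local: `α²` injective) `inv_q(m' ∪ x_q) = 0` for all invariant `m'` iff (`inv_ε`)
  `invAll(m' ∪ x_q) = 0` iff (`ddt` for `(locMu, invAll)`: `α²` injective at all levels) `x_q = 0` in
  `H²` of the full local group, i.e. `x ∈ sha2sm`.
* `finite_H1` : `finite_H1sm_of_perm` + `D.finH1`.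
-/

set_option autoImplicit false

open CategoryTheory Module groupCohomology ExtCitation

namespace Fermat.Agent.F4

variable {p : ℕ} [Fact p.Prime]

theorem exists_PTSegmentSm (S : Finset Nat.Primes) (D : GlobalDatum p S)
    (M M' : Rep.{0} (ZMod p) GQ) (hM : IsSmooth (levelsS S) M) (hM' : IsSmooth (levelsS S) M')
    (hfin : Module.Finite (ZMod p) M) (hfin' : Module.Finite (ZMod p) M')
    (θ : M ≃ₗ[ZMod p] (M' →ₗ[ZMod p] Fp1 p))
    (hθ : ∀ (g : GQ) (m : M) (m' : M'),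
      θ (M.ρ g m) m' = (Fp1 p).ρ g (θ m (M'.ρ g⁻¹ m'))) :
    Nonempty (PTSegmentSm S M M') :=
  ⟨{ X := HH1 (levelsS S) (homCx M' D.KC)
     P1 := HH1 (levelsS S) (homCx M' D.KJ)
     β := ptBeta D M'
     δ := ptaDelta D hM' hfin' θ hθ
     α := ptAlpha D M' hM' hfin'
     ι := ptIota D M' hM' hfin'
     finite_H1 := finite_H1sm_primeTo (levelsS S) D.finH1 M' hM' hfin'
     exact_X := ptaExactX D hM' hfin' θ hθ
     exact_H2 := ptaExactH2 D hM' hfin' θ hθ
     α_bijective :=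
      ⟨ptA1_injective _ _ _ _ _ _
          (ddt_inj_levels (levelsS S) D.KC D.smoothC D.inv D.a2inj D.a1surj D.a1inj M' hM' hfin'),
        ptA1_surjective _ _ _ _ _ _
          (ddt_primeTo (levelsS S) D.KC D.smoothC D.inv D.a2inj D.a1surj M' hM' hfin').2⟩
     ι_surjective := ptIota_surjective D M' hM' hfin'
     compat := pt_compat D M' hM' hfin' }⟩

end Fermat.Agent.F4
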