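import Fermat.Agent.F4.Datum

/-!
# F4 / PT / Defs : the Poitou–Tate segment in the smooth model (definitions, FIXED interface)

* `H1lvl`, `H2lvl` : change of levels `𝓤 ⊆ 𝓥`;
* `locSm1 S q`, `locSm2 S q` : localisation at `q` of smooth `H¹` (S-levels) and `H²` (all levels);
* `sha1sm`, `sha2sm` : the Tate–Shafarevich groups at the finite places of `S`, smooth model;
* `PTSegmentSm` : the segment, with `δ` into `H2sm (levelsS S) M` and `α` into the dual of
  `H1sm (levelsS S) M'`.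
-/

set_option autoImplicit false

open CategoryTheory Module groupCohomology ExtCitation

namespace Fermat.Agent.F4

section LevelChange

variable {k G : Type} [CommRing k] [Group G] {𝓤 𝓥 : Levels G} (h : 𝓤.sets ⊆ 𝓥.sets)
  (A : Rep.{0} k G)

include h in
lemma IsLC₁.mono_levels {X : Type*} {f : G → X} (hf : IsLC₁ 𝓤 f) : IsLC₁ 𝓥 f := by
  obtain ⟨U, hU, hUf⟩ := hf
  exact ⟨U, h hU, hUf⟩

include h in
lemma IsLC₂.mono_levels {X : Type*} {f : G × G → X} (hf : IsLC₂ 𝓤 f) : IsLC₂ 𝓥 f := by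
  obtain ⟨U, hU, hUf⟩ := hf
  exact ⟨U, h hU, hUf⟩

include h in
lemma Z2_mono_levels : Z2 𝓤 A ≤ Z2 𝓥 A := fun _ hz => ⟨hz.1, IsLC₂.mono_levels h hz.2⟩

include h in
lemma B2_mono_levels : B2 𝓤 A ≤ B2 𝓥 A := by
  rintro _ ⟨x, hx, rfl⟩
  exact ⟨x, IsLC₁.mono_levels h hx, rfl⟩

/-- Change of levels on smooth `H²` (inflation from `𝓤` to a finer family `𝓥`). -/
def H2lvl : H2sm 𝓤 A →ₗ[k] H2sm 𝓥 A :=
  Submodule.mapQ _ _ (Submodule.inclusion (Z2_mono_levels h A)) fun _ hz => B2_mono_levels h A hz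

end LevelChange

section Sha

variable {p : ℕ} [Fact p.Prime] (S : Finset Nat.Primes)

lemma locLevelsS_subset (q : Nat.Primes) : (locLevelsS S q).sets ⊆ (locLevelsAll q).sets := by
  rintro _ ⟨U, ⟨F, hF, hG, rfl⟩, rfl⟩
  exact ⟨_, ⟨F, hF.1, hG, rfl⟩, rfl⟩

/-- Localisation of smooth `H¹` at `q` (S-levels). -/
noncomputable def locSm1 (A : Rep.{0} (ZMod p) GQ) (q : Nat.Primes) :
    H1sm (levelsS S) A →ₗ[ZMod p] H1sm (locLevelsS S q) (Rep.res (primeLocalToGlobal q) A) :=
  H1res (levelsS S) A (primeLocalToGlobal q)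

/-- Localisation of smooth `H²` at `q`, with values in the `H²` of the full local Galois group. -/
noncomputable def locSm2 (A : Rep.{0} (ZMod p) GQ) (q : Nat.Primes) :
    H2sm (levelsS S) A →ₗ[ZMod p] H2sm (locLevelsAll q) (Rep.res (primeLocalToGlobal q) A) :=
  (H2lvl (locLevelsS_subset S q) _).comp (H2res (levelsS S) A (primeLocalToGlobal q))

/-- The total localisation of smooth `H¹` at the primes of `S`. -/
noncomputable def locSm1Total (A : Rep.{0} (ZMod p) GQ) :
    H1sm (levelsS S) A →ₗ[ZMod p]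
      ((q : ↥S) → H1sm (locLevelsS S q.1) (Rep.res (primeLocalToGlobal q.1) A)) :=
  LinearMap.pi fun q => locSm1 S A q.1

/-- `Ш¹` in the smooth model (finite places of `S` only). -/
noncomputable def sha1sm (A : Rep.{0} (ZMod p) GQ) : Submodule (ZMod p) (H1sm (levelsS S) A) :=
  LinearMap.ker (locSm1Total S A)

/-- `Ш²` in the smooth model (finite places of `S` only). -/
noncomputable def sha2sm (A : Rep.{0} (ZMod p) GQ) : Submodule (ZMod p) (H2sm (levelsS S) A) :=
  ⨅ q : ↥S, LinearMap.ker (locSm2 S A q.1)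

/-- The Poitou–Tate segment in the smooth model. -/
structure PTSegmentSm (M M' : Rep.{0} (ZMod p) GQ) where
  /-- `Ext¹(M', C)` -/
  X : Type
  /-- `Ext¹(M', J)` -/
  P1 : Type
  [instX : AddCommGroup X] [modX : Module (ZMod p) X]
  [instP1 : AddCommGroup P1] [modP1 : Module (ZMod p) P1]
  β : P1 →ₗ[ZMod p] X
  δ : X →ₗ[ZMod p] H2sm (levelsS S) M
  α : X →ₗ[ZMod p] Dual (ZMod p) (H1sm (levelsS S) M')
  ι : P1 →ₗ[ZMod p]
    Dual (ZMod p) ((q : ↥S) → H1sm (locLevelsS S q.1) (Rep.res (primeLocalToGlobal q.1) M'))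
  finite_H1 : Module.Finite (ZMod p) (H1sm (levelsS S) M')
  exact_X : LinearMap.range β = LinearMap.ker δ
  exact_H2 : LinearMap.range δ = sha2sm S M
  α_bijective : Function.Bijective α
  ι_surjective : Function.Surjective ι
  compat : α ∘ₗ β = (locSm1Total S M').dualMap ∘ₗ ι

end Sha

end Fermat.Agent.F4
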